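/-
MAZ programme (S15), moduli side, (NP-Phi) helper lemma (helper91): **the congruence-of-orders
lemma**.  Over a field `k`, let `y ∈ k((q))` have order `-1` and leading coefficient `1`, and let
`G = Y^p + a_{p-1} Y^{p-1} + ⋯ + a_0` be monic of degree `p` over `k((q))` such that
`Σ_m a_m(q^p) y^m = 0`.  Then `a_m ∈ k[[q]]` for `1 ≤ m ≤ p - 1` and `a_0 = -q⁻¹ + O(1)`.

Proof: the terms `a_m(q^p) y^m` have orders `≡ -m mod p`; the term of minimal order among
`1 ≤ m ≤ p - 1` cannot be cancelled by `a_0(q^p) + y^p` below the order `-p`.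
-/
import Mathlib
import Fermat.Prelude.Def_ModularCurve_X0ModL
import Fermat.Agent.IG.PR.RamDeg25

set_option autoImplicit false

open HahnSeries Polynomial ModularCurve

namespace Fermat.Agent.MAZ.NPOrd91

section General

variable {Γ R : Type*} [LinearOrder Γ] [Zero Γ] [AddCommMonoid R]

/-- In a finite sum of Hahn series whose nonzero terms have pairwise distinct orders, a nonzero
term of minimal order gives the lowest coefficient of the sum. -/
theorem coeff_sum_of_order_injOn {ι : Type*} [DecidableEq ι] (s : Finset ι)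
    (t : ι → HahnSeries Γ R)
    (hinj : ∀ i ∈ s, ∀ j ∈ s, t i ≠ 0 → t j ≠ 0 → (t i).order = (t j).order → i = j)
    {i0 : ι} (hi0 : i0 ∈ s) (hti : t i0 ≠ 0)
    (hmin : ∀ j ∈ s, t j ≠ 0 → (t i0).order ≤ (t j).order) :
    (∑ i ∈ s, t i).coeff (t i0).order = (t i0).coeff (t i0).order ∧
      ∀ e < (t i0).order, (∑ i ∈ s, t i).coeff e = 0 := by
  constructor
  · rw [HahnSeries.coeff_sum]
    refine Finset.sum_eq_single i0 ?_ ?_
    · intro j hj hji
      by_cases htj : t j = 0
      · rw [htj]; rfl
      · have hle := hmin j hj htj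
        have hne2 : (t i0).order ≠ (t j).order := fun h =>
          hji ((hinj i0 hi0 j hj hti htj h).symm)
        exact coeff_eq_zero_of_lt_order (lt_of_le_of_ne hle hne2)
    · intro h; exact absurd hi0 h
  · intro e he
    rw [HahnSeries.coeff_sum]
    refine Finset.sum_eq_zero fun j hj => ?_
    by_cases htj : t j = 0
    · rw [htj]; rfl
    · exact coeff_eq_zero_of_lt_order (lt_of_lt_of_le he (hmin j hj htj))

end General

variable {k : Type*} [Field k] (p : ℕ) [NeZero p]

/-- powers of a series of order `-1` with leading coefficient `1`. -/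
theorem order_pow_of_order {y : LaurentSeries k} (hy : y.order = -1) (n : ℕ) :
    (y ^ n).order = -(n : ℤ) := by
  rw [order_pow, hy]
  simp

theorem leadingCoeff_pow_of {y : LaurentSeries k} (hy1 : y.leadingCoeff = 1) (n : ℕ) :
    (y ^ n).leadingCoeff = 1 := by
  induction n with
  | zero => simp
  | succ n ih => rw [pow_succ, HahnSeries.leadingCoeff_mul, ih, hy1, one_mul]

theorem coeff_pow_neg {y : LaurentSeries k} (hy : y.order = -1) (hy1 : y.coeff (-1) = 1)
    (n : ℕ) : (y ^ n).coeff (-(n : ℤ)) = 1 := by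
  have h1 : y.leadingCoeff = 1 := by rw [leadingCoeff_eq, hy, hy1]
  have := leadingCoeff_pow_of h1 n
  rwa [leadingCoeff_eq, order_pow_of_order hy] at this

theorem coeff_pow_of_lt {y : LaurentSeries k} (hy : y.order = -1) (n : ℕ) {e : ℤ}
    (he : e < -(n : ℤ)) : (y ^ n).coeff e = 0 :=
  coeff_eq_zero_of_lt_order (by rwa [order_pow_of_order hy])

theorem ne_zero_of_order {y : LaurentSeries k} (hy : y.order = -1) : y ≠ 0 := by
  rintro rfl
  rw [order_zero] at hy
  omega

/-- **The congruence-of-orders lemma.** -/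
theorem monic_kill_coeff_shape (hp2 : 2 ≤ p) {y : LaurentSeries k} (hy : y.order = -1)
    (hy1 : y.coeff (-1) = 1) (G : (LaurentSeries k)[X]) (hG : G.Monic) (hdeg : G.natDegree = p)
    (h0 : (G.map (qExpand k p)).eval y = 0) :
    (∀ m, 1 ≤ m → m < p → ∀ n : ℤ, n < 0 → (G.coeff m).coeff n = 0) ∧
      (∀ n : ℤ, n < -1 → (G.coeff 0).coeff n = 0) ∧ (G.coeff 0).coeff (-1) = -1 := by
  classical
  have hinjV := qExpand_injective (R := k) p
  have hy0 : y ≠ 0 := ne_zero_of_order hy
  have hpZ : (0 : ℤ) < p := by exact_mod_cast (by omega : 0 < p)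
  -- the terms
  set t : ℕ → LaurentSeries k := fun m => qExpand k p (G.coeff m) * y ^ m with ht
  -- the relation
  have hrel : qExpand k p (G.coeff 0) + ∑ m ∈ Finset.Ico 1 p, t m + y ^ p = 0 := by
    have h1 : (G.map (qExpand k p)).eval y = ∑ m ∈ Finset.range (p + 1), t m := by
      rw [eval_eq_sum_range, natDegree_map_eq_of_injective hinjV, hdeg]
      refine Finset.sum_congr rfl fun m _ => ?_
      rw [coeff_map]
    rw [h1, Finset.sum_range_succ, Finset.range_eq_Ico,
      Finset.sum_eq_sum_Ico_succ_bot (by omega : 0 < p)] at h0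
    have htp : t p = y ^ p := by
      simp only [ht]
      have : G.coeff p = 1 := by rw [← hdeg]; exact hG.coeff_natDegree
      rw [this, map_one, one_mul]
    have ht0 : t 0 = qExpand k p (G.coeff 0) := by simp [ht]
    rw [htp, ht0, zero_add] at h0
    exact h0
  -- orders of the middle terms
  have hord : ∀ m, t m ≠ 0 → (t m).order = (qExpand k p (G.coeff m)).order - m := by
    intro m hm
    have hc : qExpand k p (G.coeff m) ≠ 0 := left_ne_zero_of_mul hm
    simp only [ht]
    rw [order_mul hc (pow_ne_zero _ hy0), order_pow_of_order hy]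
    ring
  have hnd : ∀ m, 1 ≤ m → m < p → t m ≠ 0 → ¬ (p : ℤ) ∣ (t m).order := by
    intro m hm1 hmp hm hd
    rw [hord m hm] at hd
    obtain ⟨a, ha⟩ := Fermat.Agent.IG.PR.RamDeg25.dvd_order_qExpand p (G.coeff m)
    rw [ha] at hd
    have hd2 : (p : ℤ) ∣ (m : ℤ) := by
      have := (Int.dvd_add_right (dvd_mul_right (p : ℤ) a)).mp
        (by simpa [sub_eq_add_neg] using hd : (p : ℤ) ∣ (p : ℤ) * a + -(m : ℤ))
      simpa using this
    have := Int.le_of_dvd (by exact_mod_cast hm1) hd2
    omega
  have hinj : ∀ i ∈ Finset.Ico 1 p, ∀ j ∈ Finset.Ico 1 p, t i ≠ 0 → t j ≠ 0 →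
      (t i).order = (t j).order → i = j := by
    intro i hi j hj hti htj hij
    rw [Finset.mem_Ico] at hi hj
    rw [hord i hti, hord j htj] at hij
    obtain ⟨a, ha⟩ := Fermat.Agent.IG.PR.RamDeg25.dvd_order_qExpand p (G.coeff i)
    obtain ⟨b, hb⟩ := Fermat.Agent.IG.PR.RamDeg25.dvd_order_qExpand p (G.coeff j)
    rw [ha, hb] at hij
    have hdvd : (p : ℤ) ∣ (i : ℤ) - j := ⟨a - b, by linear_combination (-1 : ℤ) * hij⟩
    have h0' : (i : ℤ) - j = 0 := by
      apply Int.eq_zero_of_abs_lt_dvd hdvd
      rw [abs_lt]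
      constructor <;> omega
    omega
  -- (F1) the middle sum has no coefficients at exponents `≤ -p`; (F2) the middle coefficients
  -- are power series
  have hF : (∀ e : ℤ, e ≤ -(p : ℤ) → (∑ m ∈ Finset.Ico 1 p, t m).coeff e = 0) ∧
      (∀ m, 1 ≤ m → m < p → ∀ n : ℤ, n < 0 → (G.coeff m).coeff n = 0) := by
    by_cases hall' : ∃ m ∈ Finset.Ico 1 p, t m ≠ 0
    swap
    · have hall : ∀ m ∈ Finset.Ico 1 p, t m = 0 := fun m hm =>
        by_contra fun h => hall' ⟨m, hm, h⟩
      refine ⟨fun e _ => ?_, fun m hm1 hmp n _ => ?_⟩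
      · rw [Finset.sum_eq_zero hall]; rfl
      · have := hall m (Finset.mem_Ico.mpr ⟨hm1, hmp⟩)
        simp only [ht] at this
        have hc : qExpand k p (G.coeff m) = 0 :=
          (mul_eq_zero.mp this).resolve_right (pow_ne_zero _ hy0)
        have : G.coeff m = 0 := by
          apply hinjV
          rw [hc, map_zero]
        rw [this]; rfl
    · have hne' : (Finset.filter (fun m => t m ≠ 0) (Finset.Ico 1 p)).Nonempty := by
        obtain ⟨m, hm, htm⟩ := hall'
        exact ⟨m, Finset.mem_filter.2 ⟨hm, htm⟩⟩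
      obtain ⟨i0, hi0, hmin⟩ := Finset.exists_min_image _ (fun m => (t m).order) hne'
      rw [Finset.mem_filter] at hi0
      have hmin' : ∀ j ∈ Finset.Ico 1 p, t j ≠ 0 → (t i0).order ≤ (t j).order :=
        fun j hj htj => hmin j (Finset.mem_filter.2 ⟨hj, htj⟩)
      obtain ⟨hc1, hc2⟩ := coeff_sum_of_order_injOn (Finset.Ico 1 p) t hinj hi0.1 hi0.2 hmin'
      have hi0' := Finset.mem_Ico.mp hi0.1
      -- the minimal order is `> -p`
      have he0 : -(p : ℤ) < (t i0).order := by
        by_contra hle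
        rw [not_lt] at hle
        have hndv := hnd i0 hi0'.1 hi0'.2 hi0.2
        have hlt : (t i0).order < -(p : ℤ) := by
          rcases hle.lt_or_eq with h | h
          · exact h
          · exact absurd (h ▸ (dvd_neg.mpr dvd_rfl : (p : ℤ) ∣ -(p : ℤ))) hndv
        have hcoef := congrArg (fun s : LaurentSeries k => s.coeff (t i0).order) hrel
        simp only [HahnSeries.coeff_add, HahnSeries.coeff_zero] at hcoef
        rw [hc1, qExpand_coeff_of_not_dvd p _ hndv, coeff_pow_of_lt hy p hlt, zero_add,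
          add_zero] at hcoef
        exact (coeff_order_eq_zero.not.mpr hi0.2) hcoef
      refine ⟨fun e he => hc2 e (lt_of_le_of_lt he he0), fun m hm1 hmp n hn => ?_⟩
      by_cases htm : t m = 0
      · simp only [ht] at htm
        have hc : qExpand k p (G.coeff m) = 0 :=
          (mul_eq_zero.mp htm).resolve_right (pow_ne_zero _ hy0)
        have : G.coeff m = 0 := by
          apply hinjV
          rw [hc, map_zero]
        rw [this]; rfl
      · have h1 := hmin' m (Finset.mem_Ico.mpr ⟨hm1, hmp⟩) htm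
        rw [hord m htm] at h1
        have h2 : (p : ℤ) * n < (qExpand k p (G.coeff m)).order := by
          have : (p : ℤ) * n ≤ -(p : ℤ) := by nlinarith
          have hm' : (m : ℤ) < p := by exact_mod_cast hmp
          omega
        rw [← qExpand_coeff_mul (N := p)]
        exact coeff_eq_zero_of_lt_order h2
  obtain ⟨hF1, hF2⟩ := hF
  refine ⟨hF2, fun n hn => ?_, ?_⟩
  · have hlt : (p : ℤ) * n < -(p : ℤ) := by nlinarith
    have hcoef := congrArg (fun s : LaurentSeries k => s.coeff ((p : ℤ) * n)) hrel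
    simp only [HahnSeries.coeff_add, HahnSeries.coeff_zero] at hcoef
    rw [hF1 _ hlt.le, coeff_pow_of_lt hy p hlt, add_zero, add_zero, qExpand_coeff_mul] at hcoef
    exact hcoef
  · have hcoef := congrArg (fun s : LaurentSeries k => s.coeff ((p : ℤ) * (-1))) hrel
    simp only [HahnSeries.coeff_add, HahnSeries.coeff_zero] at hcoef
    have e1 : (p : ℤ) * (-1) = -(p : ℤ) := by ring
    rw [qExpand_coeff_mul] at hcoef
    rw [e1, hF1 _ le_rfl, coeff_pow_neg hy hy1 p, add_zero] at hcoef
    linear_combination hcoef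

end Fermat.Agent.MAZ.NPOrd91
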